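import Mathlib
import Fermat.Agent.LT.H556.A0
import Fermat.Agent.LT.T1.Spec
import Fermat.Agent.LT.T2.Spec
import Fermat.Agent.LT.T2.H386.GPSSpec

/-!
# Row LT, tower T2, leaf T2.03a = `H386.LeafFD` (owner helper511): THE SUB-CUT

OFF-MAIN.  Definitions and frozen sub-leaf Props; the top `leafFD_of_leaves511` is in
`LT/T2/H511/FDTop.lean`.  Bytes typed against `LT/H556/A0.lean` (66d3374a), `LT/T1/Spec.lean`
(e8ae48d6), `LT/T2/Spec.lean` v3 (b934629a), `LT/T2/H386/GPSSpec.lean` (fb5aa9e8).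

## The proof of `FDBound` (memo of helper386, step 4), in the form used by the top

Fix `f`, `𝒟`, `N`; `n = [K:ℚ]`, `M = n N`.
1. `T1.SiegelCompactC` (height `≥ 1`) gives `Ω`, `m₀`: `x = β₀ z a ω`, `a` in the ray of `s`,
   `m₀ t ≤ s^n`.
2. `ContrC` for `Ω` and the compact set `sumsLE (-𝒟) M` of sums of at most `M` elements of `-𝒟`
   gives the integer `m > 0`.  `x' = diag(m,1)⁻¹ z a ω`, `β = β₀ diag(m,1)`.
3. `ConjAlgC`: `x'⁻¹ n(v) x' = ω⁻¹ n(m v σ) ω`, `σ` = the idele `1/s` at the infinite places and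
   `1` at the finite places.  `CptC`: `W = {ω⁻¹ n(u) ω : ω ∈ Ω, u ∈ box}` is compact.
4. `fdiff386 x' vs f h = bdiff511 us Ψ 0`, `Ψ y = f (ω⁻¹ n(y) ω h)`, `us = m vs σ`;
   by `ContrC` and the left `U(𝔫)`-invariance of `f` the finite parts of the steps can be dropped
   (expansion of `bdiff511` over sublists); `UnifSmoothC` with `ε = 1/s` bounds the result by
   `C ε^M = C (s^n)^{-N} ≤ C (m₀ t)^{-N}`.
-/

set_option autoImplicit false

open IsDedekindDomain NumberField MeasureTheory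
open Fermat.Agent.LT.H556.A0

noncomputable section

namespace Fermat.Agent.LT.T2.H511

open Fermat.Agent.LT.T2 Fermat.Agent.LT.T2.H386

variable {K : Type} [Field K] [NumberField K]

/-! ## 1. Vocabulary -/

/-- The adele with the same finite part and infinite part `0`. -/
def finPart511 (u : Adl K) : Adl K := ((0 : InfiniteAdeleRing K), u.2)

/-- The adele with the same infinite part and finite part `0`. -/
def infPart511 (u : Adl K) : Adl K := (u.1, (0 : FiniteAdeleRing (𝓞 K) K))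

/-- Iterated BACKWARD difference of a function on the adeles:
`bdiff511 [u₁, …, u_M] Ψ = ∇_{u_M} ⋯ ∇_{u₁} Ψ`, `∇_u Ψ (y) = Ψ(y) - Ψ(y - u)`. -/
def bdiff511 : List (Adl K) → (Adl K → ℂ) → (Adl K → ℂ)
  | [], Ψ => Ψ
  | u :: us, Ψ => bdiff511 us (fun y => Ψ y - Ψ (y - u))

/-- The sums of at most `M` elements of `𝒟`. -/
def sumsLE511 (𝒟 : Set (Adl K)) (M : ℕ) : Set (Adl K) :=
  {y | ∃ l : List (Adl K), l.length ≤ M ∧ (∀ v ∈ l, v ∈ 𝒟) ∧ y = l.sum}

/-- The conjugates `ω⁻¹ n(u) ω`, `ω ∈ Ω`, `u ∈ 𝒰`. -/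
def conjSet511 (Ω : Set (G K)) (𝒰 : Set (Adl K)) : Set (G K) :=
  {g | ∃ ω ∈ Ω, ∃ u ∈ 𝒰, g = ω⁻¹ * unip386 u * ω}

/-- The box: infinite components of norm `≤ R`, finite part in the finite part of `m 𝒟`. -/
def box511 (𝒟 : Set (Adl K)) (R : ℝ) (m : ℕ) : Set (Adl K) :=
  {u | (∀ w : InfinitePlace K, ‖u.1 w‖ ≤ R) ∧ ∃ v ∈ 𝒟, u.2 = ((m : Adl K) * v).2}

/-! ## 2. The sub-leaf Props -/

/-- **T2.03a.1 CONTR** (integers contract compact sets of finite adeles into the level).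
For compact `Ω ⊆ GL₂(𝔸_K)` and compact `C ⊆ 𝔸_K` there is an integer `m > 0` such that
`ω⁻¹ n((m u)_fin) ω ∈ U(𝔫)` for all `ω ∈ Ω`, `u ∈ C`.
Proof: a compact set of finite adeles (of `GL₂` of the finite adeles) has bounded denominators:
there are integers `m₁, m₂ > 0` with `m₁ u_v`, `m₂ ω_v`, `m₂ ω_v⁻¹` integral at every `v`;
`𝔫 ≠ 0` contains an integer `m₃ > 0` (the absolute norm); `m = m₁ m₂² m₃`:
`ω_v⁻¹ [[0, m u_v],[0,0]] ω_v = m₃ (m₁ u_v) (m₂ ω_v⁻¹) [[0,1],[0,0]] (m₂ ω_v) ∈ m₃ M₂(𝒪_v)`. -/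
def ContrC (K : Type) [Field K] [NumberField K] (𝔫 : Ideal (𝓞 K)) : Prop :=
  ∀ Ω : Set (G K), IsCompact Ω → ∀ C : Set (Adl K), IsCompact C →
    ∃ m : ℕ, 0 < m ∧ ∀ ω ∈ Ω, ∀ u ∈ C,
      InLevelGroup 𝔫 (ω⁻¹ * unip386 (finPart511 ((m : Adl K) * u)) * ω)

/-- **T2.03a.2 US** (uniform smoothness of a test function along the conjugated unipotent
directions at infinity; THE ANALYTIC LEAF).  For a test function `f`, a compact `Ω`, `R` and `M`
there is `C` such that for all `ω ∈ Ω`, ALL `h`, all `0 < ε ≤ 1` and all steps `τ₁, …, τ_M`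
supported at infinity (`τ.2 = 0`) with `‖τ_w‖ ≤ ε R` at every infinite place:
`|∇_{τ_M} ⋯ ∇_{τ₁} Ψ (0)| ≤ C ε^M`, `Ψ y = f (ω⁻¹ n(y) ω h)`.
Proof (memo of helper386 (ii), (iii)): write `ω = ω_∞ ω_f`, `h = h_∞ h_f`; for `τ` supported at
infinity `ω⁻¹ n(τ) ω h = h_f · (ω_∞⁻¹ n(τ) ω_∞ h_∞)`.  (a) The values vanish unless `h` lies in
the compact set `W⁻¹ supp f`, which is covered by finitely many sets `h₀ V U(𝔫)`
(`V` a chart neighbourhood of `1` at infinity; `f` is right `U(𝔫)`-invariant); same for `Ω`.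
(b) On one chart the function `(X, τ, X') ↦ f (h₀ · Y(X, τ, X'))`,
`Y = h₀_∞⁻¹ (ω₀ (1 + ρ X))⁻¹ n(τ) ω₀ (1 + ρ X) h₀_∞ (1 + ρ X')`, `ρ X = X / (2 √(1 + |X|²))`, is
`C^∞` by `T2.IsSmoothAtInf`, so its `M`-th derivative is bounded on compact sets.
(c) Finite differences of a `C^M` function on `ℝ^d`:
`|∇_{t_M} ⋯ ∇_{t₁} φ (x)| ≤ ∏ ‖t_i‖ · sup ‖D^M φ‖` (Mathlib only). -/
def UnifSmoothC (K : Type) [Field K] [NumberField K] (𝔫 : Ideal (𝓞 K)) : Prop :=
  ∀ f : G K → ℂ, IsTestFn 𝔫 f → ∀ Ω : Set (G K), IsCompact Ω → ∀ (R : ℝ) (M : ℕ),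
    ∃ C : ℝ, 0 ≤ C ∧ ∀ ω ∈ Ω, ∀ h : G K, ∀ ε : ℝ, 0 < ε → ε ≤ 1 →
      ∀ τs : List (Adl K), τs.length = M →
        (∀ τ ∈ τs, τ.2 = 0 ∧ ∀ w : InfinitePlace K, ‖τ.1 w‖ ≤ ε * R) →
        ‖bdiff511 τs (fun y => f (ω⁻¹ * unip386 y * ω * h)) 0‖ ≤ C * ε ^ M

/-- **T2.03a.3 ALG** (the three conjugations; matrix algebra over the adele ring).
(1) `diag(m,1) n(u) diag(m,1)⁻¹ = n(m u)` for the rational `diag(m,1)`;
(2) central elements commute with `n(u)`;
(3) for `a` in the ray of `s > 0`: `a⁻¹ n(u) a = n(u σ)` with `σ` the adele which is `1` at the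
finite places and of norm `1/s` at every infinite place (`σ = (a⁻¹)₀₀`; the embedding
`extensionEmbedding` is an isometry and injective). -/
def ConjAlgC (K : Type) [Field K] [NumberField K] : Prop :=
  (∀ m : ℕ, 0 < m → ∃ d : GL (Fin 2) K, T1.IsUpperRat K d ∧
      ∀ u : Adl K, T1.ratG K d * unip386 u * (T1.ratG K d)⁻¹ = unip386 ((m : Adl K) * u)) ∧
  (∀ z : G K, T1.IsCentral K z → ∀ u : Adl K, z⁻¹ * unip386 u * z = unip386 u) ∧
  (∀ (a : G K) (s : ℝ), 0 < s → T1.IsRay K a s →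
      ∃ σ : Adl K, σ.2 = 1 ∧ (∀ w : InfinitePlace K, ‖σ.1 w‖ = s⁻¹) ∧
        ∀ u : Adl K, a⁻¹ * unip386 u * a = unip386 (u * σ))

/-- **T2.03a.4 CPT** (four compactness facts).
(1) the conjugates `ω⁻¹ n(u) ω` of a compact set by a compact set form a compact set
(`unip386` is continuous, `GL₂(𝔸_K)` is a topological group);
(2) the infinite components of a compact set of adeles are bounded;
(3) the box is compact (closed balls of the completions at the infinite places are compact; the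
projection to the finite adeles is continuous);
(4) the set of sums of at most `M` elements of a compact set is compact. -/
def CptC (K : Type) [Field K] [NumberField K] : Prop :=
  (∀ Ω : Set (G K), IsCompact Ω → ∀ 𝒰 : Set (Adl K), IsCompact 𝒰 →
      IsCompact (conjSet511 Ω 𝒰)) ∧
  (∀ 𝒟 : Set (Adl K), IsCompact 𝒟 →
      ∃ R : ℝ, 0 ≤ R ∧ ∀ v ∈ 𝒟, ∀ w : InfinitePlace K, ‖v.1 w‖ ≤ R) ∧
  (∀ 𝒟 : Set (Adl K), IsCompact 𝒟 → ∀ (R : ℝ) (m : ℕ), IsCompact (box511 𝒟 R m)) ∧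
  (∀ 𝒟 : Set (Adl K), IsCompact 𝒟 → ∀ M : ℕ, IsCompact (sumsLE511 𝒟 M))

/-! ## 3. The sub-leaves (registry rows T2.03a.1 - T2.03a.4) -/

/-- **T2.03a.1** -/
def LeafContr (K : Type) [Field K] [NumberField K] : Prop :=
  T1.T1Out K → ∀ 𝔫 : Ideal (𝓞 K), 𝔫 ≠ ⊥ → ContrC K 𝔫

/-- **T2.03a.2** -/
def LeafUnifSmooth (K : Type) [Field K] [NumberField K] : Prop :=
  T1.T1Out K → ∀ 𝔫 : Ideal (𝓞 K), 𝔫 ≠ ⊥ → UnifSmoothC K 𝔫

/-- **T2.03a.3** -/
def LeafConjAlg (K : Type) [Field K] [NumberField K] : Prop := ConjAlgC K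

/-- **T2.03a.4** -/
def LeafCpt (K : Type) [Field K] [NumberField K] : Prop := T1.T1Out K → CptC K

/-! ## Equation lemmas of `bdiff511`, REALISED ONCE (ADDITIVE appendix, row-lead helper17, 16:00Z; fix of
helper8 / helper112 / helper493, see `coord/LT-collision-helper8.md`): the grader's kernel checker
rejects a closure in which two modules realise `bdiff511.eq_def`.  Nothing above this line is changed. -/

theorem bdiff511_eqns_realised : True := by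
  have _h0 := @bdiff511.eq_def
  have _h1 := @bdiff511.eq_1
  have _h2 := @bdiff511.eq_2
  trivial

end Fermat.Agent.LT.T2.H511

end
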