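import Mathlib
import Fermat.Agent.LT.T2.H511.FDSpec

/-!
# Row LT, tower T2, leaf T2.03a = `H386.LeafFD` (owner helper511): THE TOP

OFF-MAIN.  `leafFD_of_leaves511 : LeafContr K → LeafUnifSmooth K → LeafConjAlg K → LeafCpt K →
H386.LeafFD K` (VERBATIM the leaf of `LT/T2/H386/GPSSpec.lean`).
-/

set_option autoImplicit false

open IsDedekindDomain NumberField MeasureTheory
open Fermat.Agent.LT.H556.A0

noncomputable section

namespace Fermat.Agent.LT.T2.H511

open Fermat.Agent.LT.T2 Fermat.Agent.LT.T2.H386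

variable {K : Type} [Field K] [NumberField K]

/-! ## 1. Algebra of `unip386` -/

theorem unip386_zero511 : unip386 (0 : Adl K) = 1 := by
  apply Units.ext
  rw [unip386_coe]
  ext i j
  fin_cases i <;> fin_cases j <;> simp

theorem unip386_add511 (y y' : Adl K) : unip386 (y + y') = unip386 y * unip386 y' := by
  apply Units.ext
  rw [Units.val_mul, unip386_coe, unip386_coe, unip386_coe]
  ext i j
  fin_cases i <;> fin_cases j <;> simp [Matrix.mul_apply, Fin.sum_univ_two, add_comm]

/-- The conjugated one-parameter group `c(y) = ω⁻¹ n(y) ω`. -/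
def cgrp511 (ω : G K) (y : Adl K) : G K := ω⁻¹ * unip386 y * ω

theorem cgrp511_zero (ω : G K) : cgrp511 ω 0 = 1 := by
  simp [cgrp511, unip386_zero511]

theorem cgrp511_add (ω : G K) (y y' : Adl K) :
    cgrp511 ω (y + y') = cgrp511 ω y * cgrp511 ω y' := by
  simp only [cgrp511, unip386_add511]
  group

/-! ## 2. Expansion of the iterated backward difference -/

theorem bdiff511_eq_sum (us : List (Adl K)) :
    ∀ (Ψ : Adl K → ℂ) (y : Adl K),
      bdiff511 us Ψ y
        = ((us.sublists').map (fun l => (-1 : ℂ) ^ l.length * Ψ (y - l.sum))).sum := by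
  induction us with
  | nil => intro Ψ y; simp [bdiff511]
  | cons u us ih =>
    intro Ψ y
    have h1 : bdiff511 (u :: us) Ψ y = bdiff511 us (fun y => Ψ y - Ψ (y - u)) y := rfl
    rw [h1, ih, List.sublists'_cons, List.map_append, List.sum_append, List.map_map]
    rw [← List.sum_map_add]
    refine congrArg List.sum (List.map_congr_left fun l _ => ?_)
    simp only [Function.comp_apply, List.length_cons, List.sum_cons, pow_succ]
    have : y - l.sum - u = y - (u + l.sum) := by abel
    rw [this]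
    ring

/-- Two functions with the same values at the relevant points have the same iterated difference,
the steps being transformed by an additive map. -/
theorem bdiff511_congr (vs : List (Adl K)) (φ₁ φ₂ : Adl K → Adl K)
    (h₁ : ∀ l : List (Adl K), (l.map φ₁).sum = φ₁ l.sum)
    (h₂ : ∀ l : List (Adl K), (l.map φ₂).sum = φ₂ l.sum)
    (Ψ : Adl K → ℂ)
    (hΨ : ∀ l : List (Adl K), l.Sublist vs → Ψ (0 - φ₁ l.sum) = Ψ (0 - φ₂ l.sum)) :
    bdiff511 (vs.map φ₁) Ψ 0 = bdiff511 (vs.map φ₂) Ψ 0 := by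
  rw [bdiff511_eq_sum, bdiff511_eq_sum, List.sublists'_map, List.sublists'_map, List.map_map,
    List.map_map]
  refine congrArg List.sum (List.map_congr_left fun l hl => ?_)
  have hsub : l.Sublist vs := (List.mem_sublists'.1 hl)
  simp only [Function.comp_apply, List.length_map, h₁, h₂]
  rw [hΨ l hsub]

/-! ## 3. `fdiff386` along the orbit of the conjugated group -/

theorem fdiff386_eq_bdiff511 (x' ω : G K) (step : Adl K → Adl K)
    (hstep : ∀ v : Adl K, conjUnip386 x' (-v) = cgrp511 ω (-(step v)))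
    (vs : List (Adl K)) :
    ∀ (g : G K → ℂ) (h : G K) (y : Adl K),
      fdiff386 x' vs g (cgrp511 ω y * h)
        = bdiff511 (vs.map step) (fun y' => g (cgrp511 ω y' * h)) y := by
  induction vs with
  | nil => intro g h y; rfl
  | cons v vs ih =>
    intro g h y
    have h1 : fdiff386 x' (v :: vs) g = fdiff386 x' vs (diff386 x' v g) := rfl
    have h2 : bdiff511 ((v :: vs).map step) (fun y' => g (cgrp511 ω y' * h)) y
        = bdiff511 (vs.map step)
            (fun y' => g (cgrp511 ω y' * h) - g (cgrp511 ω (y' - step v) * h)) y := rfl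
    rw [h1, h2, ih]
    congr 1
    funext y'
    simp only [diff386]
    rw [hstep v, ← mul_assoc, ← cgrp511_add]
    have e : -(step v) + y' = y' - step v := by abel
    rw [e]

/-! ## 4. Infinite and finite parts -/

theorem infPart511_add_finPart511 (y : Adl K) : infPart511 y + finPart511 y = y := by
  refine Prod.ext ?_ ?_
  · show y.1 + 0 = y.1
    simp
  · show (0 : FiniteAdeleRing (𝓞 K) K) + y.2 = y.2
    simp

theorem infPart511_snd (y : Adl K) : (infPart511 y).2 = 0 := rfl

theorem infPart511_fst (y : Adl K) : (infPart511 y).1 = y.1 := rfl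

theorem infPart511_neg (y : Adl K) : infPart511 (-y) = -infPart511 y := by
  refine Prod.ext ?_ ?_
  · rfl
  · show (0 : FiniteAdeleRing (𝓞 K) K) = -0
    simp

theorem infPart511_zero : infPart511 (0 : Adl K) = 0 := rfl

theorem infPart511_add (y y' : Adl K) : infPart511 (y + y') = infPart511 y + infPart511 y' := by
  refine Prod.ext ?_ ?_
  · rfl
  · show (0 : FiniteAdeleRing (𝓞 K) K) = 0 + 0
    simp

theorem infPart511_sum (l : List (Adl K)) : (l.map infPart511).sum = infPart511 l.sum := by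
  induction l with
  | nil => simp [infPart511_zero]
  | cons a l ih => simp [ih, infPart511_add]

theorem finPart511_congr {y y' : Adl K} (h : y.2 = y'.2) : finPart511 y = finPart511 y' := by
  unfold finPart511
  rw [h]

/-! ## 5. THE TOP -/

/-- **T2.03a from its four sub-leaves.** -/
theorem leafFD_of_leaves511 (hA : LeafContr K) (hB : LeafUnifSmooth K) (hC : LeafConjAlg K)
    (hD : LeafCpt K) : H386.LeafFD K := by
  intro hT1 𝔫 h𝔫 f hf 𝒟 h𝒟 N
  obtain ⟨hcpt1, hcpt2, hcpt3, hcpt4⟩ := hD hT1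
  obtain ⟨hAlg1, hAlg2, hAlg3⟩ := hC
  -- reduction theory
  obtain ⟨Ω, m₀, M₀, hΩ, hm₀, -, hSiegel⟩ := hT1.siegelCompact 1 one_pos
  set n : ℕ := Module.finrank ℚ K with hn
  have hnpos : 0 < n := Module.finrank_pos
  set M : ℕ := n * N with hM
  -- the integer `m`
  have hneg : IsCompact (-𝒟) := h𝒟.neg
  obtain ⟨m, hm, hcontr⟩ := hA hT1 𝔫 h𝔫 Ω hΩ (sumsLE511 (-𝒟) M) (hcpt4 (-𝒟) hneg M)
  -- the bound `R` of the infinite components of `m 𝒟`
  have h𝒟m : IsCompact ((fun v : Adl K => (m : Adl K) * v) '' 𝒟) :=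
    h𝒟.image (continuous_const.mul continuous_id)
  obtain ⟨R, hR0, hR⟩ := hcpt2 _ h𝒟m
  -- uniform smoothness
  obtain ⟨C₁, hC₁0, hUS⟩ := hB hT1 𝔫 h𝔫 f hf Ω hΩ R M
  -- the compact set `W`
  have hW : IsCompact (conjSet511 Ω (box511 𝒟 R m)) := hcpt1 Ω hΩ _ (hcpt3 𝒟 h𝒟 R m)
  refine ⟨C₁ / m₀ ^ N, max 1 (1 / m₀), M, conjSet511 Ω (box511 𝒟 R m),
    div_nonneg hC₁0 (pow_nonneg hm₀.le N), lt_max_of_lt_left one_pos, hW, ?_⟩
  intro x t hx ht
  have ht1 : 1 ≤ t := le_trans (le_max_left _ _) ht
  have ht2 : 1 / m₀ ≤ t := le_trans (le_max_right _ _) ht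
  have htpos : 0 < t := lt_of_lt_of_le one_pos ht1
  obtain ⟨β₀, z, a, ω, s, hβ₀, hz, hs, ha, hω, hxeq, hs1, -⟩ := hSiegel x t hx ht1
  -- `s ≥ 1`
  have hsn : 1 ≤ s ^ n := by
    have : 1 ≤ m₀ * t := by
      have := mul_le_mul_of_nonneg_left ht2 hm₀.le
      rwa [mul_one_div_cancel hm₀.ne'] at this
    exact le_trans this hs1
  have hs_one : 1 ≤ s := by
    by_contra hlt
    rw [not_le] at hlt
    have : s ^ n < 1 := pow_lt_one₀ hs.le hlt hnpos.ne'
    exact absurd hsn (not_le.2 this)
  -- the conjugations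
  obtain ⟨d, hd, hdconj⟩ := hAlg1 m hm
  obtain ⟨σ, hσ2, hσn, haconj⟩ := hAlg3 a s hs ha
  have hzconj := hAlg2 z hz
  set x' : G K := (T1.ratG K d)⁻¹ * z * a * ω with hx'
  have hconj : ∀ v : Adl K, conjUnip386 x' v = cgrp511 ω ((m : Adl K) * v * σ) := by
    intro v
    have e1 : conjUnip386 x' v
        = ω⁻¹ * (a⁻¹ * (z⁻¹ * (T1.ratG K d * unip386 v * (T1.ratG K d)⁻¹) * z) * a) * ω := by
      simp only [conjUnip386, hx']
      group
    rw [e1, hdconj, hzconj, haconj]
    rfl
  -- the upper triangular rational element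
  have hβ : T1.IsUpperRat K (β₀ * d) := by
    unfold T1.IsUpperRat at hβ₀ hd ⊢
    rw [Matrix.GeneralLinearGroup.coe_mul, Matrix.mul_apply, Fin.sum_univ_two, hβ₀, hd]
    simp
  have hxβ : x = T1.ratG K (β₀ * d) * x' := by
    rw [hxeq, map_mul, hx']
    group
  refine ⟨β₀ * d, x', hβ, hxβ, ?_, ?_⟩
  · -- the conjugates lie in `W`
    intro v hv
    rw [hconj v]
    refine ⟨ω, hω, (m : Adl K) * v * σ, ⟨?_, v, hv, ?_⟩, rfl⟩
    · intro w
      have e : (((m : Adl K) * v * σ).1 w) = ((m : Adl K) * v).1 w * σ.1 w := rfl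
      rw [e, norm_mul, hσn w]
      have h1 := hR _ ⟨v, hv, rfl⟩ w
      have h2 : s⁻¹ ≤ 1 := inv_le_one_of_one_le₀ hs_one
      calc ‖((m : Adl K) * v).1 w‖ * s⁻¹ ≤ R * 1 :=
            mul_le_mul h1 h2 (inv_nonneg.2 hs.le) hR0
        _ = R := mul_one R
    · have e : (((m : Adl K) * v * σ).2) = ((m : Adl K) * v).2 * σ.2 := rfl
      rw [e, hσ2, mul_one]
  · -- the bound
    intro vs hvsM hvs h
    set step : Adl K → Adl K := fun v => (m : Adl K) * v * σ with hstep
    have hstepneg : ∀ v : Adl K, conjUnip386 x' (-v) = cgrp511 ω (-(step v)) := by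
      intro v
      rw [hconj (-v)]
      congr 1
      simp only [hstep]
      ring
    set Ψ : Adl K → ℂ := fun y => f (cgrp511 ω y * h) with hΨ
    have e0 : fdiff386 x' vs f h = bdiff511 (vs.map step) Ψ 0 := by
      have := fdiff386_eq_bdiff511 x' ω step hstepneg vs f h 0
      rwa [cgrp511_zero, one_mul] at this
    -- additivity of the steps
    have hsum₁ : ∀ l : List (Adl K), (l.map step).sum = step l.sum := by
      intro l
      induction l with
      | nil => simp [hstep]
      | cons b l ih =>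
        rw [List.map_cons, List.sum_cons, ih, List.sum_cons]
        show (m : Adl K) * b * σ + (m : Adl K) * l.sum * σ = (m : Adl K) * (b + l.sum) * σ
        ring
    have hsum₂ : ∀ l : List (Adl K),
        (l.map (fun v => infPart511 (step v))).sum = infPart511 (step l.sum) := by
      intro l
      have : l.map (fun v => infPart511 (step v)) = (l.map step).map infPart511 := by
        rw [List.map_map]; rfl
      rw [this, infPart511_sum, hsum₁]
    -- the finite parts of the steps can be dropped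
    have hdrop : ∀ l : List (Adl K), l.Sublist vs →
        Ψ (0 - step l.sum) = Ψ (0 - infPart511 (step l.sum)) := by
      intro l hl
      have hlM : l.length ≤ M := hvsM ▸ hl.length_le
      have hl𝒟 : ∀ v ∈ l, v ∈ 𝒟 := fun v hv => hvs v (hl.subset hv)
      set y : Adl K := 0 - step l.sum with hy
      have hy2 : 0 - infPart511 (step l.sum) = infPart511 y := by
        rw [hy, zero_sub, zero_sub, infPart511_neg]
      rw [hy2]
      have hdec : y = finPart511 y + infPart511 y := by
        rw [add_comm]; exact (infPart511_add_finPart511 y).symm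
      have hmem : -l.sum ∈ sumsLE511 (-𝒟) M := by
        refine ⟨l.map (fun x => -x), by simpa using hlM, ?_, List.sum_neg l⟩
        intro v hv
        obtain ⟨b, hb, rfl⟩ := List.mem_map.1 hv
        exact Set.neg_mem_neg.2 (hl𝒟 b hb)
      have hfin : finPart511 y = finPart511 ((m : Adl K) * (-l.sum)) := by
        apply finPart511_congr
        have e1 : y = (m : Adl K) * (-l.sum) * σ := by
          rw [hy, zero_sub]; simp only [hstep]; ring
        have e2 : ((m : Adl K) * (-l.sum) * σ).2 = ((m : Adl K) * (-l.sum)).2 * σ.2 := rfl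
        rw [e1, e2, hσ2, mul_one]
      have hlev : InLevelGroup 𝔫 (cgrp511 ω (finPart511 y)) := by
        rw [hfin]
        exact hcontr ω hω _ hmem
      show f (cgrp511 ω y * h) = f (cgrp511 ω (infPart511 y) * h)
      conv_lhs => rw [hdec, cgrp511_add, mul_assoc]
      exact hf.level_left _ hlev _
    have e1 : bdiff511 (vs.map step) Ψ 0
        = bdiff511 (vs.map (fun v => infPart511 (step v))) Ψ 0 :=
      bdiff511_congr vs step (fun v => infPart511 (step v)) hsum₁ hsum₂ Ψ hdrop
    -- uniform smoothness with `ε = 1 / s`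
    have hε0 : 0 < s⁻¹ := inv_pos.2 hs
    have hε1 : s⁻¹ ≤ 1 := inv_le_one_of_one_le₀ hs_one
    have hτ : ∀ τ ∈ vs.map (fun v => infPart511 (step v)),
        τ.2 = 0 ∧ ∀ w : InfinitePlace K, ‖τ.1 w‖ ≤ s⁻¹ * R := by
      intro τ hτ
      obtain ⟨v, hv, rfl⟩ := List.mem_map.1 hτ
      refine ⟨infPart511_snd _, fun w => ?_⟩
      rw [infPart511_fst]
      have e : ((step v).1 w) = ((m : Adl K) * v).1 w * σ.1 w := rfl
      rw [e, norm_mul, hσn w, mul_comm]
      exact mul_le_mul_of_nonneg_left (hR _ ⟨v, hvs v hv, rfl⟩ w) hε0.le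
    have hbound := hUS ω hω h s⁻¹ hε0 hε1 (vs.map (fun v => infPart511 (step v)))
      (by rw [List.length_map]; exact hvsM) hτ
    have hΨeq : (fun y => f (ω⁻¹ * unip386 y * ω * h)) = Ψ := rfl
    rw [hΨeq] at hbound
    rw [e0, e1]
    -- arithmetic
    have hsM : (s⁻¹) ^ M = ((s ^ n) ^ N)⁻¹ := by
      rw [hM, pow_mul, inv_pow, inv_pow]
    have hmt : (m₀ * t) ^ N ≤ (s ^ n) ^ N := pow_le_pow_left₀ (by positivity) hs1 N
    have hpos1 : 0 < (m₀ * t) ^ N := by positivity
    have hpos2 : 0 < (s ^ n) ^ N := by positivity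
    have h3 : ((s ^ n) ^ N)⁻¹ ≤ ((m₀ * t) ^ N)⁻¹ := inv_anti₀ hpos1 hmt
    calc ‖bdiff511 (vs.map (fun v => infPart511 (step v))) Ψ 0‖ * t ^ N
        ≤ (C₁ * (s⁻¹) ^ M) * t ^ N :=
          mul_le_mul_of_nonneg_right hbound (pow_nonneg htpos.le N)
      _ ≤ (C₁ * ((m₀ * t) ^ N)⁻¹) * t ^ N := by
          rw [hsM]
          exact mul_le_mul_of_nonneg_right (mul_le_mul_of_nonneg_left h3 hC₁0)
            (pow_nonneg htpos.le N)
      _ = C₁ / m₀ ^ N := by
          rw [mul_pow]
          field_simp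

end Fermat.Agent.LT.T2.H511

end
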