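import Mathlib
import Fermat.Agent.LT.T2.H511.FDTop
import Fermat.Agent.LT.T2.H729.ContrLeaf
import Fermat.Agent.LT.T2.H988.ConjAlg
import Fermat.Agent.LT.T2.H793.Cpt

/-!
# Row LT, tower T2, leaf T2.03a = `H386.LeafFD` (owner helper511): PARTIAL CLOSURE

OFF-MAIN.  Three of the four sub-leaves are proved (rows 1224 helper729, 1226 helper988,
1227 helper793); `H386.LeafFD K` follows from the one open sub-leaf `LeafUnifSmooth K`
(row 1225, helper437).
-/

set_option autoImplicit false

open IsDedekindDomain NumberField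
open Fermat.Agent.LT.H556.A0

namespace Fermat.Agent.LT.T2.H511

open Fermat.Agent.LT.T2 Fermat.Agent.LT.T2.H386

/-- **T2.03a from T2.03a.2 alone.** -/
theorem leafFD_of_us511 (K : Type) [Field K] [NumberField K] (hB : LeafUnifSmooth K) :
    H386.LeafFD K :=
  leafFD_of_leaves511 (Fermat.Agent.LT.T2.H729.leafContr729 K) hB
    (Fermat.Agent.LT.T2.H988.leafConjAlg988 K) (Fermat.Agent.LT.T2.H793.leafCpt793 K)

end Fermat.Agent.LT.T2.H511
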