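import Mathlib
import Fermat.Agent.LT.T2.H511.FDTop

/-!
# Row LT, tower T2, leaf T2.03a: THE TOP, PER FUNCTION (for the core classes of helper465)

OFF-MAIN, ADDITIVE (nothing of `FDSpec.lean` / `FDTop.lean` changes).  The proof of
`leafFD_of_leaves511` uses of the test function `f` ONLY its left invariance under `U(𝔫)` and the
uniform smoothness bound of T2.03a.2 FOR THIS `f`.  So the statement is proved per function:

* `UnifSmoothAt511 f` : the conclusion of `UnifSmoothC` for one function `f`;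
* `FDBoundAt511 f`    : the conclusion of `H386.FDBound` for one function `f`;
* `fdBoundAt_of511`   : `T1Out`, `ContrC K 𝔫`, `ConjAlgC K`, `CptC K`, `f` left `U(𝔫)`-invariant,
  `UnifSmoothAt511 f`  ⟹  `FDBoundAt511 f`.

`H386.FDBound K 𝔫` is `∀ f, IsTestFn 𝔫 f → FDBoundAt511 f` and `UnifSmoothC K 𝔫` is
`∀ f, IsTestFn 𝔫 f → UnifSmoothAt511 f` BY DEFINITION (`fdBound_iff_at511`,
`unifSmoothC_iff_at511`, both `Iff.rfl`); the same holds for every other class of functions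
(`H465.FDBoundCore K 𝔫` is `∀ f, IsTestCore 𝔫 f → FDBoundAt511 f` by definition).
-/

set_option autoImplicit false

open IsDedekindDomain NumberField MeasureTheory
open Fermat.Agent.LT.H556.A0

noncomputable section

namespace Fermat.Agent.LT.T2.H511

open Fermat.Agent.LT.T2 Fermat.Agent.LT.T2.H386

variable {K : Type} [Field K] [NumberField K]

/-- The conclusion of `UnifSmoothC` for ONE function. -/
def UnifSmoothAt511 (f : G K → ℂ) : Prop :=
  ∀ Ω : Set (G K), IsCompact Ω → ∀ (R : ℝ) (M : ℕ),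
    ∃ C : ℝ, 0 ≤ C ∧ ∀ ω ∈ Ω, ∀ h : G K, ∀ ε : ℝ, 0 < ε → ε ≤ 1 →
      ∀ τs : List (Adl K), τs.length = M →
        (∀ τ ∈ τs, τ.2 = 0 ∧ ∀ w : InfinitePlace K, ‖τ.1 w‖ ≤ ε * R) →
        ‖bdiff511 τs (fun y => f (ω⁻¹ * unip386 y * ω * h)) 0‖ ≤ C * ε ^ M

/-- The conclusion of `H386.FDBound` for ONE function. -/
def FDBoundAt511 (f : G K → ℂ) : Prop :=
  ∀ 𝒟 : Set (Adl K), IsCompact 𝒟 → ∀ N : ℕ,
    ∃ (C c : ℝ) (M : ℕ) (W : Set (G K)), 0 ≤ C ∧ 0 < c ∧ IsCompact W ∧
      ∀ (x : G K) (t : ℝ), T1.HasHeight K x t → c ≤ t →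
        ∃ (β : GL (Fin 2) K) (x' : G K), T1.IsUpperRat K β ∧ x = T1.ratG K β * x' ∧
          (∀ v ∈ 𝒟, conjUnip386 x' v ∈ W) ∧
          ∀ vs : List (Adl K), vs.length = M → (∀ v ∈ vs, v ∈ 𝒟) →
            ∀ h : G K, ‖fdiff386 x' vs f h‖ * t ^ N ≤ C

theorem unifSmoothC_iff_at511 (𝔫 : Ideal (𝓞 K)) :
    UnifSmoothC K 𝔫 ↔ ∀ f : G K → ℂ, IsTestFn 𝔫 f → UnifSmoothAt511 f := Iff.rfl

theorem fdBound_iff_at511 (𝔫 : Ideal (𝓞 K)) :
    H386.FDBound K 𝔫 ↔ ∀ f : G K → ℂ, IsTestFn 𝔫 f → FDBoundAt511 f := Iff.rfl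

/-- **T2.03a, per function.** -/
theorem fdBoundAt_of511 (hT1 : T1.T1Out K) {𝔫 : Ideal (𝓞 K)} (hA : ContrC K 𝔫)
    (hC : ConjAlgC K) (hD : CptC K) (f : G K → ℂ)
    (hleft : ∀ u : G K, InLevelGroup 𝔫 u → ∀ g : G K, f (u * g) = f g)
    (hB : UnifSmoothAt511 f) : FDBoundAt511 f := by
  intro 𝒟 h𝒟 N
  obtain ⟨hcpt1, hcpt2, hcpt3, hcpt4⟩ := hD
  obtain ⟨hAlg1, hAlg2, hAlg3⟩ := hC
  -- reduction theory
  obtain ⟨Ω, m₀, M₀, hΩ, hm₀, -, hSiegel⟩ := hT1.siegelCompact 1 one_pos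
  set n : ℕ := Module.finrank ℚ K with hn
  have hnpos : 0 < n := Module.finrank_pos
  set M : ℕ := n * N with hM
  -- the integer `m`
  have hneg : IsCompact (-𝒟) := h𝒟.neg
  obtain ⟨m, hm, hcontr⟩ := hA Ω hΩ (sumsLE511 (-𝒟) M) (hcpt4 (-𝒟) hneg M)
  -- the bound `R` of the infinite components of `m 𝒟`
  have h𝒟m : IsCompact ((fun v : Adl K => (m : Adl K) * v) '' 𝒟) :=
    h𝒟.image (continuous_const.mul continuous_id)
  obtain ⟨R, hR0, hR⟩ := hcpt2 _ h𝒟m
  -- uniform smoothness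
  obtain ⟨C₁, hC₁0, hUS⟩ := hB Ω hΩ R M
  -- the compact set `W`
  have hW : IsCompact (conjSet511 Ω (box511 𝒟 R m)) := hcpt1 Ω hΩ _ (hcpt3 𝒟 h𝒟 R m)
  refine ⟨C₁ / m₀ ^ N, max 1 (1 / m₀), M, conjSet511 Ω (box511 𝒟 R m),
    div_nonneg hC₁0 (pow_nonneg hm₀.le N), lt_max_of_lt_left one_pos, hW, ?_⟩
  intro x t hx ht
  have ht1 : 1 ≤ t := le_trans (le_max_left _ _) ht
  have ht2 : 1 / m₀ ≤ t := le_trans (le_max_right _ _) ht
  have htpos : 0 < t := lt_of_lt_of_le one_pos ht1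
  obtain ⟨β₀, z, a, ω, s, hβ₀, hz, hs, ha, hω, hxeq, hs1, -⟩ := hSiegel x t hx ht1
  -- `s ≥ 1`
  have hsn : 1 ≤ s ^ n := by
    have : 1 ≤ m₀ * t := by
      have := mul_le_mul_of_nonneg_left ht2 hm₀.le
      rwa [mul_one_div_cancel hm₀.ne'] at this
    exact le_trans this hs1
  have hs_one : 1 ≤ s := by
    by_contra hlt
    rw [not_le] at hlt
    have : s ^ n < 1 := pow_lt_one₀ hs.le hlt hnpos.ne'
    exact absurd hsn (not_le.2 this)
  -- the conjugations
  obtain ⟨d, hd, hdconj⟩ := hAlg1 m hm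
  obtain ⟨σ, hσ2, hσn, haconj⟩ := hAlg3 a s hs ha
  have hzconj := hAlg2 z hz
  set x' : G K := (T1.ratG K d)⁻¹ * z * a * ω with hx'
  have hconj : ∀ v : Adl K, conjUnip386 x' v = cgrp511 ω ((m : Adl K) * v * σ) := by
    intro v
    have e1 : conjUnip386 x' v
        = ω⁻¹ * (a⁻¹ * (z⁻¹ * (T1.ratG K d * unip386 v * (T1.ratG K d)⁻¹) * z) * a) * ω := by
      simp only [conjUnip386, hx']
      group
    rw [e1, hdconj, hzconj, haconj]
    rfl
  -- the upper triangular rational element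
  have hβ : T1.IsUpperRat K (β₀ * d) := by
    unfold T1.IsUpperRat at hβ₀ hd ⊢
    rw [Matrix.GeneralLinearGroup.coe_mul, Matrix.mul_apply, Fin.sum_univ_two, hβ₀, hd]
    simp
  have hxβ : x = T1.ratG K (β₀ * d) * x' := by
    rw [hxeq, map_mul, hx']
    group
  refine ⟨β₀ * d, x', hβ, hxβ, ?_, ?_⟩
  · -- the conjugates lie in `W`
    intro v hv
    rw [hconj v]
    refine ⟨ω, hω, (m : Adl K) * v * σ, ⟨?_, v, hv, ?_⟩, rfl⟩
    · intro w
      have e : (((m : Adl K) * v * σ).1 w) = ((m : Adl K) * v).1 w * σ.1 w := rfl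
      rw [e, norm_mul, hσn w]
      have h1 := hR _ ⟨v, hv, rfl⟩ w
      have h2 : s⁻¹ ≤ 1 := inv_le_one_of_one_le₀ hs_one
      calc ‖((m : Adl K) * v).1 w‖ * s⁻¹ ≤ R * 1 :=
            mul_le_mul h1 h2 (inv_nonneg.2 hs.le) hR0
        _ = R := mul_one R
    · have e : (((m : Adl K) * v * σ).2) = ((m : Adl K) * v).2 * σ.2 := rfl
      rw [e, hσ2, mul_one]
  · -- the bound
    intro vs hvsM hvs h
    set step : Adl K → Adl K := fun v => (m : Adl K) * v * σ with hstep
    have hstepneg : ∀ v : Adl K, conjUnip386 x' (-v) = cgrp511 ω (-(step v)) := by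
      intro v
      rw [hconj (-v)]
      congr 1
      simp only [hstep]
      ring
    set Ψ : Adl K → ℂ := fun y => f (cgrp511 ω y * h) with hΨ
    have e0 : fdiff386 x' vs f h = bdiff511 (vs.map step) Ψ 0 := by
      have := fdiff386_eq_bdiff511 x' ω step hstepneg vs f h 0
      rwa [cgrp511_zero, one_mul] at this
    -- additivity of the steps
    have hsum₁ : ∀ l : List (Adl K), (l.map step).sum = step l.sum := by
      intro l
      induction l with
      | nil => simp [hstep]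
      | cons b l ih =>
        rw [List.map_cons, List.sum_cons, ih, List.sum_cons]
        show (m : Adl K) * b * σ + (m : Adl K) * l.sum * σ = (m : Adl K) * (b + l.sum) * σ
        ring
    have hsum₂ : ∀ l : List (Adl K),
        (l.map (fun v => infPart511 (step v))).sum = infPart511 (step l.sum) := by
      intro l
      have : l.map (fun v => infPart511 (step v)) = (l.map step).map infPart511 := by
        rw [List.map_map]; rfl
      rw [this, infPart511_sum, hsum₁]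
    -- the finite parts of the steps can be dropped
    have hdrop : ∀ l : List (Adl K), l.Sublist vs →
        Ψ (0 - step l.sum) = Ψ (0 - infPart511 (step l.sum)) := by
      intro l hl
      have hlM : l.length ≤ M := hvsM ▸ hl.length_le
      have hl𝒟 : ∀ v ∈ l, v ∈ 𝒟 := fun v hv => hvs v (hl.subset hv)
      set y : Adl K := 0 - step l.sum with hy
      have hy2 : 0 - infPart511 (step l.sum) = infPart511 y := by
        rw [hy, zero_sub, zero_sub, infPart511_neg]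
      rw [hy2]
      have hdec : y = finPart511 y + infPart511 y := by
        rw [add_comm]; exact (infPart511_add_finPart511 y).symm
      have hmem : -l.sum ∈ sumsLE511 (-𝒟) M := by
        refine ⟨l.map (fun x => -x), by simpa using hlM, ?_, List.sum_neg l⟩
        intro v hv
        obtain ⟨b, hb, rfl⟩ := List.mem_map.1 hv
        exact Set.neg_mem_neg.2 (hl𝒟 b hb)
      have hfin : finPart511 y = finPart511 ((m : Adl K) * (-l.sum)) := by
        apply finPart511_congr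
        have e1 : y = (m : Adl K) * (-l.sum) * σ := by
          rw [hy, zero_sub]; simp only [hstep]; ring
        have e2 : ((m : Adl K) * (-l.sum) * σ).2 = ((m : Adl K) * (-l.sum)).2 * σ.2 := rfl
        rw [e1, e2, hσ2, mul_one]
      have hlev : InLevelGroup 𝔫 (cgrp511 ω (finPart511 y)) := by
        rw [hfin]
        exact hcontr ω hω _ hmem
      show f (cgrp511 ω y * h) = f (cgrp511 ω (infPart511 y) * h)
      conv_lhs => rw [hdec, cgrp511_add, mul_assoc]
      exact hleft _ hlev _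
    have e1 : bdiff511 (vs.map step) Ψ 0
        = bdiff511 (vs.map (fun v => infPart511 (step v))) Ψ 0 :=
      bdiff511_congr vs step (fun v => infPart511 (step v)) hsum₁ hsum₂ Ψ hdrop
    -- uniform smoothness with `ε = 1 / s`
    have hε0 : 0 < s⁻¹ := inv_pos.2 hs
    have hε1 : s⁻¹ ≤ 1 := inv_le_one_of_one_le₀ hs_one
    have hτ : ∀ τ ∈ vs.map (fun v => infPart511 (step v)),
        τ.2 = 0 ∧ ∀ w : InfinitePlace K, ‖τ.1 w‖ ≤ s⁻¹ * R := by
      intro τ hτ
      obtain ⟨v, hv, rfl⟩ := List.mem_map.1 hτ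
      refine ⟨infPart511_snd _, fun w => ?_⟩
      rw [infPart511_fst]
      have e : ((step v).1 w) = ((m : Adl K) * v).1 w * σ.1 w := rfl
      rw [e, norm_mul, hσn w, mul_comm]
      exact mul_le_mul_of_nonneg_left (hR _ ⟨v, hvs v hv, rfl⟩ w) hε0.le
    have hbound := hUS ω hω h s⁻¹ hε0 hε1 (vs.map (fun v => infPart511 (step v)))
      (by rw [List.length_map]; exact hvsM) hτ
    have hΨeq : (fun y => f (ω⁻¹ * unip386 y * ω * h)) = Ψ := rfl
    rw [hΨeq] at hbound
    rw [e0, e1]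
    -- arithmetic
    have hsM : (s⁻¹) ^ M = ((s ^ n) ^ N)⁻¹ := by
      rw [hM, pow_mul, inv_pow, inv_pow]
    have hmt : (m₀ * t) ^ N ≤ (s ^ n) ^ N := pow_le_pow_left₀ (by positivity) hs1 N
    have hpos1 : 0 < (m₀ * t) ^ N := by positivity
    have hpos2 : 0 < (s ^ n) ^ N := by positivity
    have h3 : ((s ^ n) ^ N)⁻¹ ≤ ((m₀ * t) ^ N)⁻¹ := inv_anti₀ hpos1 hmt
    calc ‖bdiff511 (vs.map (fun v => infPart511 (step v))) Ψ 0‖ * t ^ N
        ≤ (C₁ * (s⁻¹) ^ M) * t ^ N :=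
          mul_le_mul_of_nonneg_right hbound (pow_nonneg htpos.le N)
      _ ≤ (C₁ * ((m₀ * t) ^ N)⁻¹) * t ^ N := by
          rw [hsM]
          exact mul_le_mul_of_nonneg_right (mul_le_mul_of_nonneg_left h3 hC₁0)
            (pow_nonneg htpos.le N)
      _ = C₁ / m₀ ^ N := by
          rw [mul_pow]
          field_simp


/-- `leafFD_of_leaves511` again, through the per-function form. -/
theorem leafFD_of_leaves_at511 (hA : LeafContr K) (hB : LeafUnifSmooth K) (hC : LeafConjAlg K)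
    (hD : LeafCpt K) : H386.LeafFD K :=
  fun hT1 𝔫 h𝔫 f hf =>
    fdBoundAt_of511 hT1 (hA hT1 𝔫 h𝔫) hC (hD hT1) f hf.level_left (hB hT1 𝔫 h𝔫 f hf)

end Fermat.Agent.LT.T2.H511

end
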