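import Mathlib
import Fermat.Agent.LT.T2.H511.FDAt
import Fermat.Agent.LT.T2.H729.ContrLeaf
import Fermat.Agent.LT.T2.H988.ConjAlg
import Fermat.Agent.LT.T2.H793.Cpt

/-!
# Row LT, tower T2, leaf T2.03a: PARTIAL CLOSURE, PER FUNCTION

OFF-MAIN, ADDITIVE.  With rows 1224 (helper729), 1226 (helper988), 1227 (helper793) proved:
for EVERY function `f` which is left `U(𝔫)`-invariant (`𝔫 ≠ 0`),
`UnifSmoothAt511 f ⟹ FDBoundAt511 f`.  This is the form for the core classes
(`H465.IsTestCore`): the only input still open is the uniform smoothness bound for `f`.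
-/

set_option autoImplicit false

open IsDedekindDomain NumberField
open Fermat.Agent.LT.H556.A0

namespace Fermat.Agent.LT.T2.H511

open Fermat.Agent.LT.T2 Fermat.Agent.LT.T2.H386

/-- **T2.03a per function, from the uniform smoothness of `f` alone.** -/
theorem fdBoundAt_of_us511 (K : Type) [Field K] [NumberField K] (hT1 : T1.T1Out K)
    (𝔫 : Ideal (𝓞 K)) (h𝔫 : 𝔫 ≠ ⊥) (f : G K → ℂ)
    (hleft : ∀ u : G K, InLevelGroup 𝔫 u → ∀ g : G K, f (u * g) = f g)
    (hB : UnifSmoothAt511 f) : FDBoundAt511 f :=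
  fdBoundAt_of511 hT1 (Fermat.Agent.LT.T2.H729.contrC729 K 𝔫 h𝔫)
    (Fermat.Agent.LT.T2.H988.conjAlgC988 K) (Fermat.Agent.LT.T2.H793.cptC793 K) f hleft hB

end Fermat.Agent.LT.T2.H511
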